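import Mathlib

set_option autoImplicit false

namespace Fermat.Agent.S52

section ValJ

variable {K Ω Γ : Type*} [Field K] [Field Ω] [Algebra K Ω] [LinearOrderedCommGroupWithZero Γ]
  (v : Valuation Ω Γ) (hconst : ∀ c : K, c ≠ 0 → v (algebraMap K Ω c) = 1)

/-- the `J`-invariant (`j/1728`) of `y² = x³ - 27 a T x - 54 b T` -/
def s52fa_J (a b : K) (T : Ω) : Ω :=
  4 * (-27 * algebraMap K Ω a * T) ^ 3 /
    (4 * (-27 * algebraMap K Ω a * T) ^ 3 + 27 * (-54 * algebraMap K Ω b * T) ^ 2)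

include hconst

theorem s52fa_val_ofNat [CharZero K] (n : ℕ) (hn : n ≠ 0) : v ((n : ℕ) : Ω) = 1 := by
  have := hconst (n : K) (by exact_mod_cast hn)
  simpa using this

theorem s52fa_J_eq [CharZero K] (a b : K) (T : Ω) (hT : T ≠ 0)
    (hd : algebraMap K Ω a ^ 3 * T - algebraMap K Ω b ^ 2 ≠ 0) :
    s52fa_J a b T = algebraMap K Ω a ^ 3 * T / (algebraMap K Ω a ^ 3 * T - algebraMap K Ω b ^ 2) := by
  have h0 : (78732 : Ω) ≠ 0 := by
    have := hconst (78732 : K) (by norm_num)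
    intro h
    rw [map_ofNat, h, map_zero] at this
    exact zero_ne_one this
  unfold s52fa_J
  rw [div_eq_div_iff _ hd]
  · ring
  · have : 4 * (-27 * algebraMap K Ω a * T) ^ 3 + 27 * (-54 * algebraMap K Ω b * T) ^ 2
        = -78732 * T ^ 2 * (algebraMap K Ω a ^ 3 * T - algebraMap K Ω b ^ 2) := by ring
    rw [this]
    exact mul_ne_zero (mul_ne_zero (neg_ne_zero.mpr h0) (pow_ne_zero 2 hT)) hd

theorem s52fa_val_one_sub_J [CharZero K] (a b : K) (T : Ω) (hT : T ≠ 0)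
    (hd : algebraMap K Ω a ^ 3 * T - algebraMap K Ω b ^ 2 ≠ 0) :
    1 - s52fa_J a b T = -(algebraMap K Ω b ^ 2) / (algebraMap K Ω a ^ 3 * T - algebraMap K Ω b ^ 2) := by
  rw [s52fa_J_eq v hconst a b T hT hd]
  field_simp
  ring

/-- **good fibre**: `t ≡ c`, `c ≠ 0`, `a³ c ≠ b²` ⟹ `J` and `1 - J` are units. -/
theorem s52fa_val_good [CharZero K] (a b c : K) (ha : a ≠ 0) (hb : b ≠ 0) (hc : c ≠ 0)
    (hcab : a ^ 3 * c - b ^ 2 ≠ 0) (T : Ω) (hTc : v (T - algebraMap K Ω c) < 1) :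
    v (s52fa_J a b T) = 1 ∧ v (1 - s52fa_J a b T) = 1 := by
  have hT1 : v T = 1 := by
    have : T = algebraMap K Ω c + (T - algebraMap K Ω c) := by ring
    rw [this, Valuation.map_add_eq_of_lt_left _ (by rw [hconst c hc]; exact hTc), hconst c hc]
  have hT0 : T ≠ 0 := by
    intro h; rw [h, map_zero] at hT1; exact zero_ne_one hT1
  have hd1 : v (algebraMap K Ω a ^ 3 * T - algebraMap K Ω b ^ 2) = 1 := by
    have h1 : algebraMap K Ω a ^ 3 * T - algebraMap K Ω b ^ 2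
        = algebraMap K Ω (a ^ 3 * c - b ^ 2) + algebraMap K Ω (a ^ 3) * (T - algebraMap K Ω c) := by
      simp only [map_sub, map_mul, map_pow]; ring
    have h2 : v (algebraMap K Ω (a ^ 3) * (T - algebraMap K Ω c)) < 1 := by
      rw [map_mul, hconst _ (pow_ne_zero 3 ha), one_mul]; exact hTc
    rw [h1, Valuation.map_add_eq_of_lt_left _ (by rw [hconst _ hcab]; exact h2), hconst _ hcab]
  have hd0 : algebraMap K Ω a ^ 3 * T - algebraMap K Ω b ^ 2 ≠ 0 := by
    intro h; rw [h, map_zero] at hd1; exact zero_ne_one hd1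
  have ha1 : v (algebraMap K Ω a) = 1 := hconst a ha
  have hb1 : v (algebraMap K Ω b) = 1 := hconst b hb
  constructor
  · rw [s52fa_J_eq v hconst a b T hT0 hd0, map_div₀, hd1, map_mul, map_pow, ha1, hT1]; simp
  · rw [s52fa_val_one_sub_J v hconst a b T hT0 hd0, map_div₀, hd1, Valuation.map_neg, map_pow, hb1]
    simp

/-- **`j = 0`**: `t ≡ 0` ⟹ `J` is small. -/
theorem s52fa_val_zero [CharZero K] (a b : K) (ha : a ≠ 0) (hb : b ≠ 0)
    (T : Ω) (hT0 : T ≠ 0) (hT : v T < 1) : v (s52fa_J a b T) < 1 := by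
  have ha1 : v (algebraMap K Ω a) = 1 := hconst a ha
  have hb1 : v (algebraMap K Ω b) = 1 := hconst b hb
  have hn : v (algebraMap K Ω a ^ 3 * T) < 1 := by
    rw [map_mul, map_pow, ha1, one_pow, one_mul]; exact hT
  have hd1 : v (algebraMap K Ω a ^ 3 * T - algebraMap K Ω b ^ 2) = 1 := by
    rw [Valuation.map_sub_eq_of_lt_right _ (by rw [map_pow, hb1, one_pow]; exact hn), map_pow, hb1,
      one_pow]
  have hd0 : algebraMap K Ω a ^ 3 * T - algebraMap K Ω b ^ 2 ≠ 0 := by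
    intro h; rw [h, map_zero] at hd1; exact zero_ne_one hd1
  rw [s52fa_J_eq v hconst a b T hT0 hd0, map_div₀, hd1, div_one]
  exact hn

/-- **`j = ∞`**: `t ≡ b²/a³` ⟹ `J` is large. -/
theorem s52fa_val_node [CharZero K] (a b c : K) (ha : a ≠ 0) (hb : b ≠ 0)
    (hcab : a ^ 3 * c = b ^ 2) (T : Ω) (hTne : T ≠ algebraMap K Ω c)
    (hTc : v (T - algebraMap K Ω c) < 1) : 1 < v (s52fa_J a b T) := by
  have ha1 : v (algebraMap K Ω a) = 1 := hconst a ha
  have hb1 : v (algebraMap K Ω b) = 1 := hconst b hb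
  have hc : c ≠ 0 := by
    rintro rfl
    rw [mul_zero] at hcab
    exact pow_ne_zero 2 hb hcab.symm
  have hT1 : v T = 1 := by
    have : T = algebraMap K Ω c + (T - algebraMap K Ω c) := by ring
    rw [this, Valuation.map_add_eq_of_lt_left _ (by rw [hconst c hc]; exact hTc), hconst c hc]
  have hT0 : T ≠ 0 := by
    intro h; rw [h, map_zero] at hT1; exact zero_ne_one hT1
  have hdeq : algebraMap K Ω a ^ 3 * T - algebraMap K Ω b ^ 2
      = algebraMap K Ω a ^ 3 * (T - algebraMap K Ω c) := by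
    have : algebraMap K Ω b ^ 2 = algebraMap K Ω a ^ 3 * algebraMap K Ω c := by
      rw [← map_pow, ← map_pow, ← map_mul, hcab]
    rw [this]; ring
  have hd0 : algebraMap K Ω a ^ 3 * T - algebraMap K Ω b ^ 2 ≠ 0 := by
    rw [hdeq]
    exact mul_ne_zero (pow_ne_zero 3 (by
      intro h; rw [h, map_zero] at ha1; exact zero_ne_one ha1)) (sub_ne_zero.mpr hTne)
  have hdv : v (algebraMap K Ω a ^ 3 * T - algebraMap K Ω b ^ 2) < 1 := by
    rw [hdeq, map_mul, map_pow, ha1, one_pow, one_mul]; exact hTc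
  have hdv0 : v (algebraMap K Ω a ^ 3 * T - algebraMap K Ω b ^ 2) ≠ 0 := by
    rwa [Ne, Valuation.zero_iff]
  rw [s52fa_J_eq v hconst a b T hT0 hd0, map_div₀, map_mul, map_pow, ha1, hT1, one_pow, one_mul]
  rw [one_div]
  exact (one_lt_inv₀ (zero_lt_iff.mpr hdv0)).mpr hdv

/-- **`j = 1728`**: `t ≡ ∞` ⟹ `1 - J` is small. -/
theorem s52fa_val_infty [CharZero K] (a b : K) (ha : a ≠ 0) (hb : b ≠ 0)
    (T : Ω) (hT : 1 < v T) : v (1 - s52fa_J a b T) < 1 := by
  have ha1 : v (algebraMap K Ω a) = 1 := hconst a ha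
  have hb1 : v (algebraMap K Ω b) = 1 := hconst b hb
  have hT0 : T ≠ 0 := by
    intro h; rw [h, map_zero] at hT; exact not_lt_of_gt hT zero_lt_one
  have hn : v (algebraMap K Ω a ^ 3 * T) = v T := by
    rw [map_mul, map_pow, ha1, one_pow, one_mul]
  have hdv : v (algebraMap K Ω a ^ 3 * T - algebraMap K Ω b ^ 2) = v T := by
    rw [Valuation.map_sub_eq_of_lt_left _ (by rw [map_pow, hb1, one_pow, hn]; exact hT), hn]
  have hd0 : algebraMap K Ω a ^ 3 * T - algebraMap K Ω b ^ 2 ≠ 0 := by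
    intro h; rw [h, map_zero] at hdv; rw [← hdv] at hT; exact not_lt_of_gt hT zero_lt_one
  rw [s52fa_val_one_sub_J v hconst a b T hT0 hd0, map_div₀, hdv, Valuation.map_neg, map_pow, hb1,
    one_pow, one_div]
  exact inv_lt_one_of_one_lt₀ hT

end ValJ

end Fermat.Agent.S52
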