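/-
S52, node [F-ASM] (helper2).  Prefix `s52fa_`.  Part 1: GENUS `0` OF THE `x`-DIVISION FIELD OF
`𝓔_t : y² = x³ - 27 a t x - 54 b t`, from the local ramification analysis.

`K` algebraically closed of characteristic `0`, `F / K(t)` finite Galois, generated (faithfully) by
a set `R` of roots of the `5`-division polynomial of `𝓔_t`.  From

* the bridge `s52fa_Bridge` (a place `v` of `F` stabilised by `σ` lifts to a valuation subring `A`
  of the algebraic closure `Ω` of `F` and an automorphism `σ'` of `Ω` in the inertia group of `A`),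
* the local analysis `s52fa_RamLoc` (`σ'` of the inertia group fixes the `x`-coordinates of the
  `5`-torsion when `J, 1 - J` are units; `σ'^3` does when `J` is small; `σ'^2` when `1 - J` is
  small; `σ'^4` or `σ'^5` when `J` is large; `J = 4A³/(4A³+27B²)`),

the genus of `F` is `0`: `s52fa_genus_zero` (helper27's `s52u_main_ord` with
`(c₀, c₁, ∞) = (0, b²/a³, ∞)` and `(e₀, e₁, e) = (3, 5, 2)`).
-/
import Mathlib
import Fermat.Agent.S52.HUR.Main
import Fermat.Agent.S52.NOS.Short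
import Fermat.Agent.S52.FASM.ValJ
import Fermat.Agent.S13.Ladder.Count
import Fermat.Agent.S13.Ladder.Integral
import Fermat.Prelude.Def_FLTPrelim_Ramification

set_option autoImplicit false
set_option linter.unusedSectionVars false

noncomputable section

namespace Fermat.Agent.S52

open AlgebraicCurve IntermediateField IsLocalRing Polynomial
open WeierstrassCurve WeierstrassCurve.Affine
open Fermat.Agent.S24 Fermat.Agent.S13
open scoped Pointwise

universe u v
variable {K : Type u} {F : Type v} [Field K] [Field F] [Algebra K F]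

/-- the algebraic closure in which the local analysis takes place -/
abbrev s52fa_Om (F : Type v) [Field F] : Type v := AlgebraicClosure F

instance s52fa_decEq : DecidableEq (s52fa_Om F) := Classical.decEq _

variable (t : F)

/-- the coefficient `A = -27 a t` of `𝓔_t`, in `K(t)` -/
def s52fa_A (a : K) : ↥K⟮t⟯ := -27 * algebraMap K ↥K⟮t⟯ a * AdjoinSimple.gen K t

/-- the coefficient `B = -54 b t` of `𝓔_t`, in `K(t)` -/
def s52fa_B (b : K) : ↥K⟮t⟯ := -54 * algebraMap K ↥K⟮t⟯ b * AdjoinSimple.gen K t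

/-- `𝓔_t : y² = x³ - 27 a t x - 54 b t` over `K(t)` -/
def s52fa_E (a b : K) : WeierstrassCurve ↥K⟮t⟯ := s52n_short (s52fa_A t a) (s52fa_B t b)

/-- `τ` fixes the `x`-coordinates of all points of `𝓔_t(Ω)` killed by `5`. -/
def s52fa_FixX (a b : K) (τ : s52fa_Om F ≃ₐ[↥K⟮t⟯] s52fa_Om F) : Prop :=
  ∀ (x y : s52fa_Om F) (h : ((s52fa_E t a b)⁄(s52fa_Om F)).Nonsingular x y),
    (5 : ℕ) • (Point.some x y h : ((s52fa_E t a b)⁄(s52fa_Om F)).Point) = 0 → τ x = x

/-- `J = 4A³/(4A³ + 27B²)` in `Ω` -/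
def s52fa_JOm (a b : K) : s52fa_Om F :=
  4 * algebraMap ↥K⟮t⟯ (s52fa_Om F) (s52fa_A t a) ^ 3 /
    (4 * algebraMap ↥K⟮t⟯ (s52fa_Om F) (s52fa_A t a) ^ 3 +
      27 * algebraMap ↥K⟮t⟯ (s52fa_Om F) (s52fa_B t b) ^ 2)

/-- **the local analysis** ([RAM-LOC], helper7's `s52m_main` for `K₀ = K(t)`, `Ω = F̄`). -/
structure s52fa_RamLoc (a b : K) : Prop where
  good : ∀ (A : ValuationSubring (s52fa_Om F)) (σ : s52fa_Om F ≃ₐ[↥K⟮t⟯] s52fa_Om F),
    (∀ n : ℕ, n ≠ 0 → A.valuation ((n : ℕ) : s52fa_Om F) = 1) → σ ∈ A.inertiaSubgroupIn ↥K⟮t⟯ →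
    A.valuation (s52fa_JOm t a b) = 1 → A.valuation (1 - s52fa_JOm t a b) = 1 →
    s52fa_FixX t a b σ
  zero : ∀ (A : ValuationSubring (s52fa_Om F)) (σ : s52fa_Om F ≃ₐ[↥K⟮t⟯] s52fa_Om F),
    (∀ n : ℕ, n ≠ 0 → A.valuation ((n : ℕ) : s52fa_Om F) = 1) → σ ∈ A.inertiaSubgroupIn ↥K⟮t⟯ →
    A.valuation (s52fa_JOm t a b) < 1 → s52fa_FixX t a b (σ ^ 3)
  one : ∀ (A : ValuationSubring (s52fa_Om F)) (σ : s52fa_Om F ≃ₐ[↥K⟮t⟯] s52fa_Om F),
    (∀ n : ℕ, n ≠ 0 → A.valuation ((n : ℕ) : s52fa_Om F) = 1) → σ ∈ A.inertiaSubgroupIn ↥K⟮t⟯ →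
    A.valuation (1 - s52fa_JOm t a b) < 1 → s52fa_FixX t a b (σ ^ 2)
  infty : ∀ (A : ValuationSubring (s52fa_Om F)) (σ : s52fa_Om F ≃ₐ[↥K⟮t⟯] s52fa_Om F),
    (∀ n : ℕ, n ≠ 0 → A.valuation ((n : ℕ) : s52fa_Om F) = 1) → σ ∈ A.inertiaSubgroupIn ↥K⟮t⟯ →
    1 < A.valuation (s52fa_JOm t a b) → s52fa_FixX t a b (σ ^ 4) ∨ s52fa_FixX t a b (σ ^ 5)

/-- **the bridge** ([RAM-BRIDGE], helper13's `s52rb_main` / helper22's `s52v_bridge`). -/
def s52fa_Bridge : Prop :=
  ∀ (v : Place K F) (σ : F ≃ₐ[↥K⟮t⟯] F),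
    (∀ f ∈ v.toValuationSubring, σ f ∈ v.toValuationSubring) →
    ∃ (A : ValuationSubring (s52fa_Om F)) (σ' : s52fa_Om F ≃ₐ[↥K⟮t⟯] s52fa_Om F),
      A.comap (algebraMap F (s52fa_Om F)) = v.toValuationSubring ∧
      (∀ f : F, σ' (algebraMap F (s52fa_Om F) f) = algebraMap F (s52fa_Om F) (σ f)) ∧
      σ' ∈ A.inertiaSubgroupIn ↥K⟮t⟯

/-! ### coordinates in `Ω` -/

theorem s52fa_coe_A (a : K) : ((s52fa_A t a : ↥K⟮t⟯) : F) = -27 * algebraMap K F a * t := by
  simp only [s52fa_A, MulMemClass.coe_mul, NegMemClass.coe_neg, AdjoinSimple.coe_gen]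
  rfl

theorem s52fa_coe_B (b : K) : ((s52fa_B t b : ↥K⟮t⟯) : F) = -54 * algebraMap K F b * t := by
  simp only [s52fa_B, MulMemClass.coe_mul, NegMemClass.coe_neg, AdjoinSimple.coe_gen]
  rfl

theorem s52fa_algebraMap_A (a : K) :
    algebraMap ↥K⟮t⟯ (s52fa_Om F) (s52fa_A t a) =
      -27 * algebraMap K (s52fa_Om F) a * algebraMap F (s52fa_Om F) t := by
  rw [IsScalarTower.algebraMap_apply ↥K⟮t⟯ F (s52fa_Om F), IsScalarTower.algebraMap_apply K F
    (s52fa_Om F), IntermediateField.algebraMap_apply, s52fa_coe_A]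
  simp [map_ofNat]

theorem s52fa_algebraMap_B (b : K) :
    algebraMap ↥K⟮t⟯ (s52fa_Om F) (s52fa_B t b) =
      -54 * algebraMap K (s52fa_Om F) b * algebraMap F (s52fa_Om F) t := by
  rw [IsScalarTower.algebraMap_apply ↥K⟮t⟯ F (s52fa_Om F), IsScalarTower.algebraMap_apply K F
    (s52fa_Om F), IntermediateField.algebraMap_apply, s52fa_coe_B]
  simp [map_ofNat]

theorem s52fa_JOm_eq (a b : K) :
    s52fa_JOm t a b = s52fa_J a b (algebraMap F (s52fa_Om F) t) := by
  unfold s52fa_JOm s52fa_J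
  rw [s52fa_algebraMap_A, s52fa_algebraMap_B]

/-! ### from `Ω` back to `F` -/

theorem s52fa_pow_ext (σ : F ≃ₐ[↥K⟮t⟯] F) (σ' : s52fa_Om F ≃ₐ[↥K⟮t⟯] s52fa_Om F)
    (hext : ∀ f : F, σ' (algebraMap F (s52fa_Om F) f) = algebraMap F (s52fa_Om F) (σ f))
    (e : ℕ) (f : F) :
    (σ' ^ e) (algebraMap F (s52fa_Om F) f) = algebraMap F (s52fa_Om F) ((σ ^ e) f) := by
  induction e generalizing f with
  | zero => simp
  | succ n ih =>
    rw [pow_succ, pow_succ, AlgEquiv.mul_apply, AlgEquiv.mul_apply, hext, ih]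

theorem s52fa_tOm_ne_zero (ht : Transcendental K t) : algebraMap F (s52fa_Om F) t ≠ 0 := by
  intro h
  have h0 : t = 0 := (FaithfulSMul.algebraMap_injective F (s52fa_Om F)) (by rw [h, map_zero])
  apply ht
  rw [h0]
  exact isAlgebraic_zero

theorem s52fa_den_ne_zero (ht : Transcendental K t) (a b : K) (ha : a ≠ 0) :
    algebraMap K (s52fa_Om F) a ^ 3 * algebraMap F (s52fa_Om F) t
      - algebraMap K (s52fa_Om F) b ^ 2 ≠ 0 := by
  intro h
  apply ht
  have h1 : algebraMap F (s52fa_Om F) (algebraMap K F a ^ 3 * t - algebraMap K F b ^ 2) = 0 := by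
    rw [map_sub, map_mul, map_pow, map_pow, ← IsScalarTower.algebraMap_apply,
      ← IsScalarTower.algebraMap_apply]
    exact h
  have h2 : algebraMap K F a ^ 3 * t - algebraMap K F b ^ 2 = 0 :=
    (FaithfulSMul.algebraMap_injective F (s52fa_Om F)) (by rw [h1, map_zero])
  have ha' : algebraMap K F (a ^ 3) ≠ 0 := by
    rw [Ne, map_eq_zero]; exact pow_ne_zero 3 ha
  have h3 : t = algebraMap K F (b ^ 2 / a ^ 3) := by
    rw [map_div₀, eq_div_iff ha', map_pow, map_pow]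
    linear_combination h2
  rw [h3]
  exact isAlgebraic_algebraMap _

theorem s52fa_Δ_ne_zero [CharZero K] (ht : Transcendental K t) (a b : K) (ha : a ≠ 0) :
    ((s52fa_E t a b)⁄(s52fa_Om F)).Δ ≠ 0 := by
  have hE : ((s52fa_E t a b)⁄(s52fa_Om F)) =
      s52n_short (algebraMap ↥K⟮t⟯ (s52fa_Om F) (s52fa_A t a))
        (algebraMap ↥K⟮t⟯ (s52fa_Om F) (s52fa_B t b)) := by
    show (s52fa_E t a b).map _ = _
    rw [s52fa_E, s52n_short_map]
  rw [hE, s52n_short_Δ, s52fa_algebraMap_A, s52fa_algebraMap_B]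
  have h1 : -16 * (4 * (-27 * algebraMap K (s52fa_Om F) a * algebraMap F (s52fa_Om F) t) ^ 3
      + 27 * (-54 * algebraMap K (s52fa_Om F) b * algebraMap F (s52fa_Om F) t) ^ 2)
      = 1259712 * algebraMap F (s52fa_Om F) t ^ 2 *
        (algebraMap K (s52fa_Om F) a ^ 3 * algebraMap F (s52fa_Om F) t
          - algebraMap K (s52fa_Om F) b ^ 2) := by ring
  rw [h1]
  have hchar : CharZero (s52fa_Om F) :=
    charZero_of_injective_algebraMap (FaithfulSMul.algebraMap_injective K (s52fa_Om F))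
  exact mul_ne_zero (mul_ne_zero (by norm_num) (pow_ne_zero 2 (s52fa_tOm_ne_zero t ht)))
    (s52fa_den_ne_zero t ht a b ha)

/-- the `5`-division polynomial of `𝓔_t`, over `F` -/
def s52fa_psi (a b : K) : Polynomial F :=
  ldC (ldPoly ((s52fa_E t a b).map (algebraMap ↥K⟮t⟯ F))) 2

theorem s52fa_psi_map (a b : K) :
    (s52fa_psi t a b).map (algebraMap F (s52fa_Om F)) =
      ldC (ldPoly ((s52fa_E t a b)⁄(s52fa_Om F))) 2 := by
  rw [s52fa_psi, ldC_ldPoly_map, WeierstrassCurve.map_map,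
    ← IsScalarTower.algebraMap_eq ↥K⟮t⟯ F (s52fa_Om F)]
  rfl

/-- a root of `ψ₅` in `F` is the `x`-coordinate of a point of `𝓔_t(Ω)` killed by `5`. -/
theorem s52fa_exists_point [CharZero K] (ht : Transcendental K t) (a b : K) (ha : a ≠ 0) (r : F)
    (hr : (s52fa_psi t a b).eval r = 0) :
    ∃ (y : s52fa_Om F)
      (h : ((s52fa_E t a b)⁄(s52fa_Om F)).Nonsingular (algebraMap F (s52fa_Om F) r) y),
      (5 : ℕ) • (Point.some _ y h : ((s52fa_E t a b)⁄(s52fa_Om F)).Point) = 0 := by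
  set W := ((s52fa_E t a b)⁄(s52fa_Om F)) with hW
  have hΔ : W.Δ ≠ 0 := s52fa_Δ_ne_zero t ht a b ha
  set r' := algebraMap F (s52fa_Om F) r with hr'
  obtain ⟨y, hy⟩ := IsAlgClosed.exists_pow_nat_eq
    (r' ^ 3 + W.a₄ * r' + W.a₆) (n := 2) (by norm_num)
  have ha₁ : W.a₁ = 0 := by simp [hW, s52fa_E, s52n_short]
  have ha₂ : W.a₂ = 0 := by simp [hW, s52fa_E, s52n_short]
  have ha₃ : W.a₃ = 0 := by simp [hW, s52fa_E, s52n_short]
  have he : W.Equation r' y := by
    rw [Affine.equation_iff, ha₁, ha₂, ha₃, hy]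
    ring
  have hn : W.Nonsingular r' y := (equation_iff_nonsingular_of_Δ_ne_zero hΔ).mp he
  refine ⟨y, hn, ?_⟩
  have h5 : (5 : ℕ) = 2 * 2 + 1 := by norm_num
  rw [h5, ld_odd_nsmul_eq_zero_iff hn 2, ← s52fa_psi_map, Polynomial.eval_map_algebraMap,
    Polynomial.aeval_algebraMap_apply, Polynomial.coe_aeval_eq_eval, hr, map_zero]

theorem s52fa_fix_of_fixX [CharZero K] (ht : Transcendental K t) (a b : K) (ha : a ≠ 0)
    (σ : F ≃ₐ[↥K⟮t⟯] F) (σ' : s52fa_Om F ≃ₐ[↥K⟮t⟯] s52fa_Om F)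
    (hext : ∀ f : F, σ' (algebraMap F (s52fa_Om F) f) = algebraMap F (s52fa_Om F) (σ f))
    (e : ℕ) (hfix : s52fa_FixX t a b (σ' ^ e)) (r : F) (hr : (s52fa_psi t a b).eval r = 0) :
    (σ ^ e) r = r := by
  obtain ⟨y, h, h5⟩ := s52fa_exists_point t ht a b ha r hr
  have h1 := hfix _ y h h5
  rw [s52fa_pow_ext t σ σ' hext] at h1
  exact (FaithfulSMul.algebraMap_injective F (s52fa_Om F)) h1

/-! ### valuations of constants, of `t - c` and of `t` at a valuation subring over a place -/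

section Val

variable {t} (v : Place K F) (A : ValuationSubring (s52fa_Om F))
  (hA : A.comap (algebraMap F (s52fa_Om F)) = v.toValuationSubring)

include hA

theorem s52fa_mem_iff (f : F) : algebraMap F (s52fa_Om F) f ∈ A ↔ f ∈ v.toValuationSubring := by
  rw [← hA, ValuationSubring.mem_comap]

theorem s52fa_const_val (c : K) (hc : c ≠ 0) : A.valuation (algebraMap K (s52fa_Om F) c) = 1 := by
  have h1 : algebraMap K (s52fa_Om F) c ∈ A := by
    rw [IsScalarTower.algebraMap_apply K F (s52fa_Om F), s52fa_mem_iff v A hA]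
    exact v.algebraMap_mem' c
  have h2 : (algebraMap K (s52fa_Om F) c)⁻¹ ∈ A := by
    rw [← map_inv₀, IsScalarTower.algebraMap_apply K F (s52fa_Om F), s52fa_mem_iff v A hA]
    exact v.algebraMap_mem' c⁻¹
  have h1' := (ValuationSubring.valuation_le_one_iff A _).mpr h1
  have h2' := (ValuationSubring.valuation_le_one_iff A _).mpr h2
  rw [map_inv₀] at h2'
  have h0 : A.valuation (algebraMap K (s52fa_Om F) c) ≠ 0 := by
    rw [Ne, Valuation.zero_iff, map_eq_zero]; exact hc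
  refine le_antisymm h1' ?_
  exact (inv_le_one₀ (zero_lt_iff.mpr h0)).mp h2'

theorem s52fa_val_sub_lt (ht : Transcendental K t) (c : K) (hv : v ∈ hw_placesOver t c) :
    A.valuation (algebraMap F (s52fa_Om F) t - algebraMap K (s52fa_Om F) c) < 1 := by
  rw [s52u_mem_placesOver_iff ht, ← s52fa_mem_iff v A hA, ← ValuationSubring.valuation_le_one_iff,
    not_le, map_inv₀, map_sub, ← IsScalarTower.algebraMap_apply, map_inv₀] at hv
  have h0 : A.valuation (algebraMap F (s52fa_Om F) t - algebraMap K (s52fa_Om F) c) ≠ 0 := by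
    intro h
    rw [h, inv_zero] at hv
    exact not_lt_of_gt hv zero_lt_one
  exact (one_lt_inv₀ (zero_lt_iff.mpr h0)).mp hv

theorem s52fa_val_t_gt (ht : Transcendental K t) (hv : v ∈ hw_placesAtInfty (K := K) t) :
    1 < A.valuation (algebraMap F (s52fa_Om F) t) := by
  rw [s52u_mem_placesAtInfty_iff ht, ← s52fa_mem_iff v A hA,
    ← ValuationSubring.valuation_le_one_iff, not_le] at hv
  exact hv

end Val

/-! ### the main theorem -/

section Main

variable [IsAlgClosed K] [CharZero K]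

/-- **[F-ASM], abstract form**: the `x`-division field of `𝓔_t` has genus `0`. -/
theorem s52fa_genus_zero (ht : Transcendental K t) [FiniteDimensional K⟮t⟯ F] [IsGalois K⟮t⟯ F]
    [HasCanonicalDivisor (K := K) (F := F)] (a b : K) (ha : a ≠ 0) (hb : b ≠ 0)
    (hB : s52fa_Bridge (K := K) t) (hL : s52fa_RamLoc (K := K) t a b)
    (R : Set F) (hR : ∀ r ∈ R, (s52fa_psi t a b).eval r = 0)
    (hfaith : ∀ σ : F ≃ₐ[↥K⟮t⟯] F, (∀ r ∈ R, σ r = r) → σ = 1) :
    genus K F = 0 := by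
  have hc01 : (0 : K) ≠ b ^ 2 / a ^ 3 :=
    (div_ne_zero (pow_ne_zero 2 hb) (pow_ne_zero 3 ha)).symm
  -- the common part: lift `(v, σ)` to `(A, σ')`
  have key : ∀ (v : Place K F) (σ : F ≃ₐ[↥K⟮t⟯] F),
      (∀ f ∈ v.toValuationSubring, σ f ∈ v.toValuationSubring) →
      ∃ (A : ValuationSubring (s52fa_Om F)) (σ' : s52fa_Om F ≃ₐ[↥K⟮t⟯] s52fa_Om F),
        A.comap (algebraMap F (s52fa_Om F)) = v.toValuationSubring ∧
        (∀ n : ℕ, n ≠ 0 → A.valuation ((n : ℕ) : s52fa_Om F) = 1) ∧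
        σ' ∈ A.inertiaSubgroupIn ↥K⟮t⟯ ∧
        ∀ e : ℕ, s52fa_FixX t a b (σ' ^ e) → σ ^ e = 1 := by
    intro v σ hσ
    obtain ⟨A, σ', hA, hext, hin⟩ := hB v σ hσ
    refine ⟨A, σ', hA, fun n hn => ?_, hin, fun e he => ?_⟩
    · exact s52fa_val_ofNat A.valuation (s52fa_const_val v A hA) n hn
    · apply hfaith
      intro r hr
      exact s52fa_fix_of_fixX t ht a b ha σ σ' hext e he r (hR r hr)
  refine s52u_main_ord t ht 0 (b ^ 2 / a ^ 3) hc01 3 5 2 (by norm_num) ?_ ?_ ?_ ?_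
  · -- good fibres
    intro c hc0 hc1 v hv σ hσ
    obtain ⟨A, σ', hA, hnat, hin, hfix⟩ := key v σ hσ
    have hcab : a ^ 3 * c - b ^ 2 ≠ 0 := by
      intro h
      apply hc1
      rw [eq_div_iff (pow_ne_zero 3 ha)]
      linear_combination h
    obtain ⟨hJ, hJ'⟩ := s52fa_val_good A.valuation (s52fa_const_val v A hA) a b c ha hb hc0 hcab
      (algebraMap F (s52fa_Om F) t) (s52fa_val_sub_lt v A hA ht c hv)
    rw [← s52fa_JOm_eq] at hJ hJ'
    have h1 := hfix 1 (by rw [pow_one]; exact hL.good A σ' hnat hin hJ hJ')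
    rwa [pow_one] at h1
  · -- `t = 0` (`j = 0`)
    intro v hv σ hσ
    obtain ⟨A, σ', hA, hnat, hin, hfix⟩ := key v σ hσ
    have hlt := s52fa_val_sub_lt v A hA ht 0 hv
    rw [map_zero, sub_zero] at hlt
    have hJ := s52fa_val_zero A.valuation (s52fa_const_val v A hA) a b ha hb
      (algebraMap F (s52fa_Om F) t) (s52fa_tOm_ne_zero t ht) hlt
    rw [← s52fa_JOm_eq] at hJ
    exact orderOf_le_of_pow_eq_one (by norm_num) (hfix 3 (hL.zero A σ' hnat hin hJ))
  · -- `t = b²/a³` (`j = ∞`)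
    intro v hv σ hσ
    obtain ⟨A, σ', hA, hnat, hin, hfix⟩ := key v σ hσ
    have hlt := s52fa_val_sub_lt v A hA ht (b ^ 2 / a ^ 3) hv
    have hcab : a ^ 3 * (b ^ 2 / a ^ 3) = b ^ 2 := by
      field_simp
    have hne : algebraMap F (s52fa_Om F) t ≠ algebraMap K (s52fa_Om F) (b ^ 2 / a ^ 3) := by
      intro h
      apply ht
      rw [IsScalarTower.algebraMap_apply K F (s52fa_Om F)] at h
      rw [(FaithfulSMul.algebraMap_injective F (s52fa_Om F)) h]
      exact isAlgebraic_algebraMap _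
    have hJ := s52fa_val_node A.valuation (s52fa_const_val v A hA) a b (b ^ 2 / a ^ 3) ha hb hcab
      (algebraMap F (s52fa_Om F) t) hne hlt
    rw [← s52fa_JOm_eq] at hJ
    rcases hL.infty A σ' hnat hin hJ with h4 | h5
    · exact (orderOf_le_of_pow_eq_one (by norm_num) (hfix 4 h4)).trans (by norm_num)
    · exact orderOf_le_of_pow_eq_one (by norm_num) (hfix 5 h5)
  · -- `t = ∞` (`j = 1728`)
    intro v hv σ hσ
    obtain ⟨A, σ', hA, hnat, hin, hfix⟩ := key v σ hσ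
    have hJ := s52fa_val_infty A.valuation (s52fa_const_val v A hA) a b ha hb
      (algebraMap F (s52fa_Om F) t) (s52fa_val_t_gt v A hA ht hv)
    rw [← s52fa_JOm_eq] at hJ
    exact orderOf_le_of_pow_eq_one (by norm_num) (hfix 2 (hL.one A σ' hnat hin hJ))

end Main

end Fermat.Agent.S52
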