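/-
S52, node [F-ASM] (helper2).  Prefix `s52fa_`.  Part 2: THE CONCRETE FIELD
`Fb = ℚ̄(t)(x(𝓔_t[5])) ⊂ ℚ̄((u))`, `t = 1 + u`, IS A `s52l_Field` (LAU/Seams.lean):
`G_ℚ`-stable, contains `u`, finite over `ℚ̄(u)`, of genus `0`.

Inputs: helper14's [TORS-LAU] (`s52e_R`, the 12 roots of `ψ₅` in `ℚ̄((u))`), helper23's [FBAR]
(the finite Galois function field package), and part 1 (`s52fa_genus_zero`), whose two hypotheses
(the bridge and the local analysis, for `F = Fb`) are kept as hypotheses here.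
-/
import Mathlib
import Fermat.Agent.S52.FASM.Genus
import Fermat.Agent.S52.FBAR.Concrete
import Fermat.Agent.S52.TORS.Closed
import Fermat.Agent.S52.LAU.Seams
import Fermat.Agent.S52.LAU.Twist

set_option autoImplicit false
set_option linter.unusedSectionVars false

noncomputable section

namespace Fermat.Agent.S52

open AlgebraicCurve IntermediateField Polynomial
open WeierstrassCurve WeierstrassCurve.Affine
open Fermat.Agent.S13

/-- `t = 1 + u ∈ ℚ̄((u))` -/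
def s52fa_t : s52l_Om := algebraMap s52e_A s52e_Om (1 + PowerSeries.X)

theorem s52fa_t_eq : s52fa_t = 1 + s52l_u := by
  rw [s52fa_t, map_add, map_one, LaurentSeries.coe_algebraMap, HahnSeries.ofPowerSeries_X]
  rfl

theorem s52fa_algebraMap_C (c : s52_Qb) :
    algebraMap s52e_A s52e_Om (PowerSeries.C c) = algebraMap s52_Qb s52l_Om c := by
  rw [LaurentSeries.coe_algebraMap, HahnSeries.algebraMap_apply']
  rfl

/-- the pencil over `ℚ̄[T]` -/
def s52fa_ET (a b : ℚ) : WeierstrassCurve (Polynomial s52_Qb) :=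
  ⟨0, 0, 0, -27 * C (algebraMap ℚ s52_Qb a) * X, -54 * C (algebraMap ℚ s52_Qb b) * X⟩

/-- the `5`-division polynomial of the pencil, in `ℚ̄[T][X]` -/
def s52fa_f (a b : ℚ) : Polynomial (Polynomial s52_Qb) := ldC (ldPoly (s52fa_ET a b)) 2

theorem s52fa_ET_map (a b : ℚ) :
    (s52fa_ET a b).map (aeval s52fa_t : Polynomial s52_Qb →ₐ[s52_Qb] s52l_Om).toRingHom =
      s52e_E a b := by
  rw [s52e_E, s52e_EA, s52fa_ET]
  ext <;> simp [WeierstrassCurve.map, map_ofNat, s52fa_t]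

theorem s52fa_f_map (a b : ℚ) :
    (s52fa_f a b).map (aeval s52fa_t : Polynomial s52_Qb →ₐ[s52_Qb] s52l_Om).toRingHom =
      (s52e_psi a b).map (algebraMap s52e_A s52e_Om) := by
  rw [s52fa_f, ldC_ldPoly_map, s52fa_ET_map, s52e_psi_mapOm]

theorem s52fa_split (a b : ℚ) (hΔ : a ^ 3 - b ^ 2 ≠ 0) :
    (s52fa_f a b).map (aeval s52fa_t : Polynomial s52_Qb →ₐ[s52_Qb] s52l_Om).toRingHom =
      C (-5 : s52l_Om) * ∏ r ∈ s52e_R a b, (X - C r) := by
  rw [s52fa_f_map, (s52e_R_spec a b hΔ).2]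

/-- **the field** `Fb = ℚ̄(t)(R)`, `R` the `12` roots of `ψ₅` in `ℚ̄((u))`. -/
def s52fa_Fb (a b : ℚ) : IntermediateField s52_Qb s52l_Om :=
  s52b_F (K := s52_Qb) s52fa_t (s52e_R a b)

/-- `t` as an element of `Fb` -/
abbrev s52fa_x (a b : ℚ) : ↥(s52fa_Fb a b) := s52b_x (K := s52_Qb) s52fa_t (s52e_R a b)

theorem s52fa_R_mem (a b : ℚ) {r : s52l_Om} (hr : r ∈ s52e_R a b) : r ∈ s52fa_Fb a b :=
  s52b_R_mem s52fa_t (s52e_R a b) hr

theorem s52fa_t_mem (a b : ℚ) : s52fa_t ∈ s52fa_Fb a b := s52b_t_mem s52fa_t (s52e_R a b)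

theorem s52fa_u_mem (a b : ℚ) : s52l_u ∈ s52fa_Fb a b := by
  have h : s52l_u = s52fa_t - 1 := by rw [s52fa_t_eq]; ring
  rw [h]
  exact sub_mem (s52fa_t_mem a b) (one_mem _)

theorem s52fa_u_order : s52l_u.order = 1 := by
  rw [s52l_u]
  exact HahnSeries.order_single one_ne_zero

theorem s52fa_t_transcendental : Transcendental s52_Qb s52fa_t := by
  intro halg
  apply s52l_transcendental s52fa_u_order
  have h : s52l_u = s52fa_t - algebraMap s52_Qb s52l_Om 1 := by rw [s52fa_t_eq, map_one]; ring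
  rw [h]
  exact halg.sub (isAlgebraic_algebraMap _)

theorem s52fa_x_transcendental (a b : ℚ) : Transcendental s52_Qb (s52fa_x a b) :=
  s52b_transcendental s52fa_t_transcendental _

theorem s52fa_neg_five_ne : (-5 : s52l_Om) ≠ 0 := by
  have h : (-5 : s52l_Om) = algebraMap s52_Qb s52l_Om (-5) := by
    rw [map_neg, map_ofNat]
  rw [h, Ne, map_eq_zero]
  norm_num

theorem s52fa_finiteDimensional (a b : ℚ) (hΔ : a ^ 3 - b ^ 2 ≠ 0) :
    FiniteDimensional s52_Qb⟮s52fa_x a b⟯ ↥(s52fa_Fb a b) :=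
  s52b_F_finiteDimensional (lc := (-5 : s52l_Om)) s52fa_neg_five_ne (s52fa_split a b hΔ)

theorem s52fa_isGalois (a b : ℚ) (hΔ : a ^ 3 - b ^ 2 ≠ 0) :
    IsGalois s52_Qb⟮s52fa_x a b⟯ ↥(s52fa_Fb a b) :=
  s52b_F_isGalois (lc := (-5 : s52l_Om)) s52fa_neg_five_ne (s52fa_split a b hΔ)

/-- the action of `G_ℚ` fixes `t`. -/
theorem s52fa_act_t (γ : s52_G) : s52l_act γ s52fa_t = s52fa_t := by
  rw [s52fa_t, s52e_act_coe]
  congr 1
  simp

theorem s52fa_act_const (γ : s52_G) (c : s52_Qb) :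
    s52l_act γ (algebraMap s52_Qb s52l_Om c) = algebraMap s52_Qb s52l_Om (γ c) := by
  rw [← s52fa_algebraMap_C, s52e_act_coe, PowerSeries.map_C, s52fa_algebraMap_C]
  rfl

theorem s52fa_stable (a b : ℚ) (hΔ : a ^ 3 - b ^ 2 ≠ 0) (γ : s52_G) (f : s52l_Om)
    (hf : f ∈ s52fa_Fb a b) : s52l_act γ f ∈ s52fa_Fb a b :=
  s52b_F_stable s52fa_t (s52e_R a b) (s52l_act γ) (s52fa_act_t γ)
    (fun c => ⟨γ c, s52fa_act_const γ c⟩) (fun _ hr => s52e_R_stable a b hΔ γ hr) hf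

/-! ### the division polynomial over `Fb` -/

theorem s52fa_E_a₄ (a b : ℚ) :
    (s52e_E a b).a₄ = -27 * algebraMap s52_Qb s52l_Om (algebraMap ℚ s52_Qb a) * s52fa_t := by
  simp [s52e_E, s52e_EA, WeierstrassCurve.map, map_ofNat, s52fa_t]

theorem s52fa_E_a₆ (a b : ℚ) :
    (s52e_E a b).a₆ = -54 * algebraMap s52_Qb s52l_Om (algebraMap ℚ s52_Qb b) * s52fa_t := by
  simp [s52e_E, s52e_EA, WeierstrassCurve.map, map_ofNat, s52fa_t]

theorem s52fa_coe_coef (a b : ℚ) (n : ℕ) [n.AtLeastTwo] (c : s52_Qb) :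
    algebraMap ↥(s52fa_Fb a b) s52l_Om
      (-(OfNat.ofNat n) * algebraMap s52_Qb ↥(s52fa_Fb a b) c * s52fa_x a b) =
      -(OfNat.ofNat n) * algebraMap s52_Qb s52l_Om c * s52fa_t := by
  rw [map_mul, map_mul, map_neg, map_ofNat, ← IsScalarTower.algebraMap_apply]
  rfl

theorem s52fa_curve_val (a b : ℚ) :
    ((s52fa_E (s52fa_x a b) (algebraMap ℚ s52_Qb a) (algebraMap ℚ s52_Qb b)).map
      (algebraMap ↥s52_Qb⟮s52fa_x a b⟯ ↥(s52fa_Fb a b))).map
        (algebraMap ↥(s52fa_Fb a b) s52l_Om) = s52e_E a b := by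
  refine WeierstrassCurve.ext ?_ ?_ ?_ ?_ ?_
  · simp [s52e_E, s52e_EA, s52fa_E, s52n_short, WeierstrassCurve.map]
  · simp [s52e_E, s52e_EA, s52fa_E, s52n_short, WeierstrassCurve.map]
  · simp [s52e_E, s52e_EA, s52fa_E, s52n_short, WeierstrassCurve.map]
  · rw [s52fa_E_a₄]
    show algebraMap ↥(s52fa_Fb a b) s52l_Om (algebraMap ↥s52_Qb⟮s52fa_x a b⟯ ↥(s52fa_Fb a b)
      (s52fa_A (s52fa_x a b) (algebraMap ℚ s52_Qb a))) = _
    rw [IntermediateField.algebraMap_apply s52_Qb⟮s52fa_x a b⟯, s52fa_coe_A]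
    exact s52fa_coe_coef a b 27 _
  · rw [s52fa_E_a₆]
    show algebraMap ↥(s52fa_Fb a b) s52l_Om (algebraMap ↥s52_Qb⟮s52fa_x a b⟯ ↥(s52fa_Fb a b)
      (s52fa_B (s52fa_x a b) (algebraMap ℚ s52_Qb b))) = _
    rw [IntermediateField.algebraMap_apply s52_Qb⟮s52fa_x a b⟯, s52fa_coe_B]
    exact s52fa_coe_coef a b 54 _

theorem s52fa_psi_val (a b : ℚ) :
    (s52fa_psi (s52fa_x a b) (algebraMap ℚ s52_Qb a) (algebraMap ℚ s52_Qb b)).map
      (algebraMap ↥(s52fa_Fb a b) s52l_Om) = ldC (ldPoly (s52e_E a b)) 2 := by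
  rw [s52fa_psi, ldC_ldPoly_map, s52fa_curve_val]

theorem s52fa_psi_eval (a b : ℚ) (z : ↥(s52fa_Fb a b)) (hz : (z : s52l_Om) ∈ s52e_R a b) :
    (s52fa_psi (s52fa_x a b) (algebraMap ℚ s52_Qb a) (algebraMap ℚ s52_Qb b)).eval z = 0 := by
  have h := (s52e_mem_R a b (z : s52l_Om)).mp hz
  rw [← s52fa_psi_val] at h
  have h2 : (z : s52l_Om) = algebraMap ↥(s52fa_Fb a b) s52l_Om z := rfl
  rw [h2, Polynomial.eval_map_apply] at h
  exact (FaithfulSMul.algebraMap_injective ↥(s52fa_Fb a b) s52l_Om) (by rw [h, map_zero])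

/-! ### the assembly -/

theorem s52fa_adjoin_u (a b : ℚ) :
    IntermediateField.adjoin s52_Qb {(⟨s52l_u, s52fa_u_mem a b⟩ : ↥(s52fa_Fb a b))} =
      s52_Qb⟮s52fa_x a b⟯ := by
  have hu : (⟨s52l_u, s52fa_u_mem a b⟩ : ↥(s52fa_Fb a b)) = s52fa_x a b - 1 := by
    apply Subtype.ext
    show s52l_u = s52fa_t - 1
    rw [s52fa_t_eq]; ring
  apply le_antisymm
  · rw [IntermediateField.adjoin_simple_le_iff, hu]
    exact sub_mem (IntermediateField.mem_adjoin_simple_self _ _) (one_mem _)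
  · rw [IntermediateField.adjoin_simple_le_iff]
    have hx : s52fa_x a b = (⟨s52l_u, s52fa_u_mem a b⟩ : ↥(s52fa_Fb a b)) + 1 := by
      rw [hu]; ring
    rw [hx]
    exact add_mem (IntermediateField.mem_adjoin_simple_self _ _) (one_mem _)

/-- **[F-ASM]**: `Fb` is a `s52l_Field`, given the bridge and the local analysis for `Fb`. -/
theorem s52fa_field (a b : ℚ) (ha : a ≠ 0) (hb : b ≠ 0) (hΔ : a ^ 3 - b ^ 2 ≠ 0)
    (hB : s52fa_Bridge (K := s52_Qb) (s52fa_x a b))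
    (hL : s52fa_RamLoc (K := s52_Qb) (s52fa_x a b) (algebraMap ℚ s52_Qb a)
      (algebraMap ℚ s52_Qb b)) :
    s52l_Field (s52fa_Fb a b) := by
  haveI hfin := s52fa_finiteDimensional a b hΔ
  haveI hgal := s52fa_isGalois a b hΔ
  refine ⟨s52fa_stable a b hΔ, s52fa_u_mem a b, ?_, ?_⟩
  · rw [s52fa_adjoin_u]
    exact hfin
  · intro hcan
    have ha' : algebraMap ℚ s52_Qb a ≠ 0 := by rwa [Ne, map_eq_zero]
    have hb' : algebraMap ℚ s52_Qb b ≠ 0 := by rwa [Ne, map_eq_zero]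
    exact s52fa_genus_zero (s52fa_x a b) (s52fa_x_transcendental a b) _ _ ha' hb' hB hL
      {z : ↥(s52fa_Fb a b) | (z : s52l_Om) ∈ s52e_R a b}
      (fun z hz => s52fa_psi_eval a b z hz)
      (fun σ hσ => s52b_F_faithful s52fa_t (s52e_R a b) σ (fun z hz => hσ z hz))

end Fermat.Agent.S52
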