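/-
S52, node [F-ASM] (helper2).  Prefix `s52fa_`.  Part 4: THE SEAM `s52l_FAsm_stmt` OF THE (U) GLUE
(helper5, #3747), from the bridge and the local analysis for the concrete field `Fb`:

  `∃ Fb (ht : s52e_t ∈ Fb), s52l_Field Fb ∧ (∀ r ∈ s52e_R a b, r ∈ Fb) ∧
     ∀ h : Fb, (h + 27) (h + 3)³ (t - b²/a³) ≠ 1728 t h`.

The last clause is helper19's `s52w_rootless` at the node `c₁ = b²/a³`, fed with the pointwise
statement `σ⁴ = 1 ∨ σ⁵ = 1` for the stabilisers of the places over `t = c₁` (`s52fa_h45`).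
-/
import Mathlib
import Fermat.Agent.S52.FASM.Field
import Fermat.Agent.S52.UTR.Pole

set_option autoImplicit false
set_option linter.unusedSectionVars false

noncomputable section

namespace Fermat.Agent.S52

open AlgebraicCurve IntermediateField Polynomial
open WeierstrassCurve WeierstrassCurve.Affine
open Fermat.Agent.S24 Fermat.Agent.S13

section Abstract

universe u v
variable {K : Type u} {F : Type v} [Field K] [Field F] [Algebra K F] [IsAlgClosed K] [CharZero K]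
  (t : F)

/-- the stabilisers of the places over the node `t = b²/a³` consist of elements killed by `4` or
by `5`. -/
theorem s52fa_h45 (ht : Transcendental K t) (a b : K) (ha : a ≠ 0) (hb : b ≠ 0)
    (hB : s52fa_Bridge (K := K) t) (hL : s52fa_RamLoc (K := K) t a b)
    (R : Set F) (hR : ∀ r ∈ R, (s52fa_psi t a b).eval r = 0)
    (hfaith : ∀ σ : F ≃ₐ[↥K⟮t⟯] F, (∀ r ∈ R, σ r = r) → σ = 1) :
    ∀ v ∈ hw_placesOver t (b ^ 2 / a ^ 3), ∀ σ : F ≃ₐ[↥K⟮t⟯] F,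
      (∀ f ∈ v.toValuationSubring, σ f ∈ v.toValuationSubring) → σ ^ 4 = 1 ∨ σ ^ 5 = 1 := by
  intro v hv σ hσ
  obtain ⟨A, σ', hA, hext, hin⟩ := hB v σ hσ
  have hnat : ∀ n : ℕ, n ≠ 0 → A.valuation ((n : ℕ) : s52fa_Om F) = 1 := fun n hn =>
    s52fa_val_ofNat A.valuation (s52fa_const_val v A hA) n hn
  have hfix : ∀ e : ℕ, s52fa_FixX t a b (σ' ^ e) → σ ^ e = 1 := by
    intro e he
    apply hfaith
    intro r hr
    exact s52fa_fix_of_fixX t ht a b ha σ σ' hext e he r (hR r hr)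
  have hlt := s52fa_val_sub_lt v A hA ht (b ^ 2 / a ^ 3) hv
  have hcab : a ^ 3 * (b ^ 2 / a ^ 3) = b ^ 2 := by
    field_simp
  have hne : algebraMap F (s52fa_Om F) t ≠ algebraMap K (s52fa_Om F) (b ^ 2 / a ^ 3) := by
    intro h
    apply ht
    rw [IsScalarTower.algebraMap_apply K F (s52fa_Om F)] at h
    rw [(FaithfulSMul.algebraMap_injective F (s52fa_Om F)) h]
    exact isAlgebraic_algebraMap _
  have hJ := s52fa_val_node A.valuation (s52fa_const_val v A hA) a b (b ^ 2 / a ^ 3) ha hb hcab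
    (algebraMap F (s52fa_Om F) t) hne hlt
  rw [← s52fa_JOm_eq] at hJ
  rcases hL.infty A σ' hnat hin hJ with h4 | h5
  · exact Or.inl (hfix 4 h4)
  · exact Or.inr (hfix 5 h5)

/-- the `X₀(3)`-quartic of `j = 1728 t / (t - b²/a³)` has no root in `F`. -/
theorem s52fa_rootless (ht : Transcendental K t) [FiniteDimensional K⟮t⟯ F] [IsGalois K⟮t⟯ F]
    (a b : K) (ha : a ≠ 0) (hb : b ≠ 0)
    (hB : s52fa_Bridge (K := K) t) (hL : s52fa_RamLoc (K := K) t a b)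
    (R : Set F) (hR : ∀ r ∈ R, (s52fa_psi t a b).eval r = 0)
    (hfaith : ∀ σ : F ≃ₐ[↥K⟮t⟯] F, (∀ r ∈ R, σ r = r) → σ = 1) :
    ∀ h : F, (h + 27) * (h + 3) ^ 3 * (t - algebraMap K F (b ^ 2 / a ^ 3)) ≠ 1728 * t * h :=
  s52w_rootless ht (b ^ 2 / a ^ 3) (div_ne_zero (pow_ne_zero 2 hb) (pow_ne_zero 3 ha))
    (s52fa_h45 t ht a b ha hb hB hL R hR hfaith)

end Abstract

/-- `s52fa_t` is helper14's `s52e_t`. -/
theorem s52fa_t_eq' : s52fa_t = s52e_t := by rw [s52fa_t_eq, s52e_t]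

/-- **[F-ASM]**, in the shape of the seam `s52l_FAsm_stmt` of the (U) glue, for given `a b`, from
the bridge and the local analysis for `Fb`. -/
theorem s52fa_FAsm_of (a b : ℚ) (ha : a ≠ 0) (hb : b ≠ 0) (hΔ : a ^ 3 - b ^ 2 ≠ 0)
    (hB : s52fa_Bridge (K := s52_Qb) (s52fa_x a b))
    (hL : s52fa_RamLoc (K := s52_Qb) (s52fa_x a b) (algebraMap ℚ s52_Qb a)
      (algebraMap ℚ s52_Qb b)) :
    ∃ (Fb : IntermediateField s52_Qb s52l_Om) (ht : s52e_t ∈ Fb), s52l_Field Fb ∧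
      (∀ r ∈ s52e_R a b, r ∈ Fb) ∧
      ∀ h : ↥Fb, (h + 27) * (h + 3) ^ 3 * ((⟨s52e_t, ht⟩ : ↥Fb) -
          algebraMap s52_Qb ↥Fb (algebraMap ℚ s52_Qb (b ^ 2 / a ^ 3))) ≠
        1728 * (⟨s52e_t, ht⟩ : ↥Fb) * h := by
  have ht : s52e_t ∈ s52fa_Fb a b := by
    rw [← s52fa_t_eq']
    exact s52fa_t_mem a b
  have hx : (⟨s52e_t, ht⟩ : ↥(s52fa_Fb a b)) = s52fa_x a b :=
    Subtype.ext s52fa_t_eq'.symm
  refine ⟨s52fa_Fb a b, ht, s52fa_field a b ha hb hΔ hB hL, fun r hr => s52fa_R_mem a b hr, ?_⟩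
  have hfin := s52fa_finiteDimensional a b hΔ
  have hgal := s52fa_isGalois a b hΔ
  have ha' : algebraMap ℚ s52_Qb a ≠ 0 := by rwa [Ne, map_eq_zero]
  have hb' : algebraMap ℚ s52_Qb b ≠ 0 := by rwa [Ne, map_eq_zero]
  have hroot := s52fa_rootless (s52fa_x a b) (s52fa_x_transcendental a b) _ _ ha' hb' hB hL
    {z : ↥(s52fa_Fb a b) | (z : s52l_Om) ∈ s52e_R a b}
    (fun z hz => s52fa_psi_eval a b z hz)
    (fun σ hσ => s52b_F_faithful s52fa_t (s52e_R a b) σ (fun z hz => hσ z hz))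
  intro h
  rw [hx, map_div₀, map_pow, map_pow]
  exact hroot h

end Fermat.Agent.S52
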