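/-
S52, node [F-ASM] (helper2).  Prefix `s52fa_`.  Part 5: [F-ASM] CLOSED.

`s52fa_FAsm` = the seam `s52l_FAsm_stmt` of the (U) glue (helper5, #3747), with NO hypothesis left:
the bridge `s52fa_Bridge` comes from [RAM-BRIDGE] (helper13, `s52rb_main_of`) + [VALEXT]
(helper22, `s52v_bridge_smul`), the local analysis `s52fa_RamLoc` from [RAM-LOC]
(helper7 + helper16: `s52m_good`, `s52m_j0`, `s52m_j1728`, `s52m_node`).
-/
import Mathlib
import Fermat.Agent.S52.FASM.Final
import Fermat.Agent.S52.FASM.Loc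
import Fermat.Agent.S52.VAL.Bridge
import Fermat.Agent.S52.RAM.Main

set_option autoImplicit false
set_option linter.unusedSectionVars false

noncomputable section

namespace Fermat.Agent.S52

open AlgebraicCurve IntermediateField
open WeierstrassCurve WeierstrassCurve.Affine
open scoped Pointwise

section Abstract

universe u v
variable {K : Type u} {F : Type v} [Field K] [Field F] [Algebra K F] (t : F)

theorem s52fa_isAlgebraic_Om [FiniteDimensional K⟮t⟯ F] :
    Algebra.IsAlgebraic ↥K⟮t⟯ (s52fa_Om F) :=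
  Algebra.IsAlgebraic.trans ↥K⟮t⟯ F (s52fa_Om F)

/-- the bridge for `(K(t), F, AlgebraicClosure F)`, closed. -/
theorem s52fa_bridge [IsAlgClosed K] [CharZero K] (ht : Transcendental K t)
    [FiniteDimensional K⟮t⟯ F] : s52fa_Bridge (K := K) t := by
  have := s52fa_isAlgebraic_Om (K := K) t
  have : Normal ↥K⟮t⟯ (s52fa_Om F) :=
    normal_iff.mpr fun x => ⟨(Algebra.IsAlgebraic.isAlgebraic x).isIntegral,
      IsAlgClosed.splits _⟩
  have : CharZero F := charZero_of_injective_algebraMap (FaithfulSMul.algebraMap_injective K F)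
  have : IsGalois F (s52fa_Om F) := IsAlgClosure.isGalois F (s52fa_Om F)
  exact s52fa_bridge_of t ht fun v σ hσ => s52v_bridge_smul v.toValuationSubring σ hσ

/-- the local analysis for `(K(t), AlgebraicClosure F, -27at, -54bt)`, closed. -/
theorem s52fa_ramLoc [CharZero K] (ht : Transcendental K t) [FiniteDimensional K⟮t⟯ F]
    (a b : K) (ha : a ≠ 0) : s52fa_RamLoc (K := K) t a b := by
  classical
  have := s52fa_isAlgebraic_Om (K := K) t
  have : CharZero F := charZero_of_injective_algebraMap (FaithfulSMul.algebraMap_injective K F)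
  have : CharZero (s52fa_Om F) :=
    charZero_of_injective_algebraMap (FaithfulSMul.algebraMap_injective F (s52fa_Om F))
  have hD := s52fa_disc_ne_zero t ht a b ha
  exact s52fa_ramLoc_of t a b
    (fun A h30 σ hσ hJ hJ1 => s52m_good _ _ hD A h30 hσ hJ hJ1)
    (fun A h30 σ hσ hJ => s52m_j0 _ _ hD A h30 hσ hJ)
    (fun A h30 σ hσ hJ => s52m_j1728 _ _ hD A h30 hσ hJ)
    (fun A h30 σ hσ hJ => s52m_node _ _ hD A h30 hσ hJ)

end Abstract

/-- **[F-ASM]**, closed: the seam `s52l_FAsm_stmt` of the (U) glue. -/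
theorem s52fa_FAsm : ∀ a b : ℚ, a ≠ 0 → b ≠ 0 → a ^ 3 - b ^ 2 ≠ 0 →
    ∃ (Fb : IntermediateField s52_Qb s52l_Om) (ht : s52e_t ∈ Fb), s52l_Field Fb ∧
      (∀ r ∈ s52e_R a b, r ∈ Fb) ∧
      ∀ h : ↥Fb, (h + 27) * (h + 3) ^ 3 * ((⟨s52e_t, ht⟩ : ↥Fb) -
          algebraMap s52_Qb ↥Fb (algebraMap ℚ s52_Qb (b ^ 2 / a ^ 3))) ≠
        1728 * (⟨s52e_t, ht⟩ : ↥Fb) * h := by
  intro a b ha hb hΔ
  have := s52fa_finiteDimensional a b hΔ
  have ha' : algebraMap ℚ s52_Qb a ≠ 0 := by rwa [Ne, map_eq_zero]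
  exact s52fa_FAsm_of a b ha hb hΔ
    (s52fa_bridge (K := s52_Qb) (s52fa_x a b) (s52fa_x_transcendental a b))
    (s52fa_ramLoc (K := s52_Qb) (s52fa_x a b) (s52fa_x_transcendental a b) _ _ ha')

end Fermat.Agent.S52

end
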