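/-
S52, node [F-ASM] (helper2).  Prefix `s52fa_`.  Part 3: ADAPTERS from the landed vocabularies of
[RAM-LOC] (helper7, `RAM/Defs.lean`: `s52m_J`, `s52m_FixesX`) and [RAM-BRIDGE] (helper13,
`RAMB/Main.lean`: `s52rb_main_of`) to the hypotheses `s52fa_RamLoc`, `s52fa_Bridge` of part 1.
-/
import Mathlib
import Fermat.Agent.S52.FASM.Genus
import Fermat.Agent.S52.RAM.Defs
import Fermat.Agent.S52.RAMB.Main

set_option autoImplicit false
set_option linter.unusedSectionVars false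

noncomputable section

namespace Fermat.Agent.S52

open AlgebraicCurve IntermediateField
open WeierstrassCurve WeierstrassCurve.Affine
open scoped Pointwise

universe u v
variable {K : Type u} {F : Type v} [Field K] [Field F] [Algebra K F] (t : F)

theorem s52fa_JOm_eq_m (a b : K) :
    s52fa_JOm t a b = s52m_J (s52fa_Om F) (s52fa_A t a) (s52fa_B t b) := by
  rw [s52fa_JOm, s52m_J, map_div₀, map_add, map_mul, map_mul, map_pow, map_pow, map_ofNat,
    map_ofNat]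

theorem s52fa_fixX_iff (a b : K) (τ : s52fa_Om F ≃ₐ[↥K⟮t⟯] s52fa_Om F) :
    s52fa_FixX t a b τ ↔ s52m_FixesX (s52fa_A t a) (s52fa_B t b) τ := Iff.rfl

theorem s52fa_disc_ne_zero [CharZero K] (ht : Transcendental K t) (a b : K) (ha : a ≠ 0) :
    4 * s52fa_A t a ^ 3 + 27 * s52fa_B t b ^ 2 ≠ 0 := by
  intro h
  have h1 := s52fa_Δ_ne_zero t ht a b ha
  apply h1
  have hE : ((s52fa_E t a b)⁄(s52fa_Om F)) =
      s52n_short (algebraMap ↥K⟮t⟯ (s52fa_Om F) (s52fa_A t a))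
        (algebraMap ↥K⟮t⟯ (s52fa_Om F) (s52fa_B t b)) := by
    show (s52fa_E t a b).map _ = _
    rw [s52fa_E, s52n_short_map]
  rw [hE, s52n_short_Δ]
  have h2 := congrArg (algebraMap ↥K⟮t⟯ (s52fa_Om F)) h
  rw [map_add, map_mul, map_mul, map_pow, map_pow, map_ofNat, map_ofNat, map_zero] at h2
  rw [h2, mul_zero]

/-- the local analysis in the shape of part 1, from the four theorems of [RAM-LOC]. -/
theorem s52fa_ramLoc_of (a b : K)
    (hgood : ∀ (A : ValuationSubring (s52fa_Om F)), A.valuation (30 : s52fa_Om F) = 1 →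
      ∀ σ : s52fa_Om F ≃ₐ[↥K⟮t⟯] s52fa_Om F, σ ∈ A.inertiaSubgroupIn ↥K⟮t⟯ →
      A.valuation (s52m_J (s52fa_Om F) (s52fa_A t a) (s52fa_B t b)) = 1 →
      A.valuation (1 - s52m_J (s52fa_Om F) (s52fa_A t a) (s52fa_B t b)) = 1 →
      s52m_FixesX (s52fa_A t a) (s52fa_B t b) σ)
    (hj0 : ∀ (A : ValuationSubring (s52fa_Om F)), A.valuation (30 : s52fa_Om F) = 1 →
      ∀ σ : s52fa_Om F ≃ₐ[↥K⟮t⟯] s52fa_Om F, σ ∈ A.inertiaSubgroupIn ↥K⟮t⟯ →
      A.valuation (s52m_J (s52fa_Om F) (s52fa_A t a) (s52fa_B t b)) < 1 →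
      s52m_FixesX (s52fa_A t a) (s52fa_B t b) (σ ^ 3))
    (hj1728 : ∀ (A : ValuationSubring (s52fa_Om F)), A.valuation (30 : s52fa_Om F) = 1 →
      ∀ σ : s52fa_Om F ≃ₐ[↥K⟮t⟯] s52fa_Om F, σ ∈ A.inertiaSubgroupIn ↥K⟮t⟯ →
      A.valuation (1 - s52m_J (s52fa_Om F) (s52fa_A t a) (s52fa_B t b)) < 1 →
      s52m_FixesX (s52fa_A t a) (s52fa_B t b) (σ ^ 2))
    (hnode : ∀ (A : ValuationSubring (s52fa_Om F)), A.valuation (30 : s52fa_Om F) = 1 →
      ∀ σ : s52fa_Om F ≃ₐ[↥K⟮t⟯] s52fa_Om F, σ ∈ A.inertiaSubgroupIn ↥K⟮t⟯ →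
      1 < A.valuation (s52m_J (s52fa_Om F) (s52fa_A t a) (s52fa_B t b)) →
      s52m_FixesX (s52fa_A t a) (s52fa_B t b) (σ ^ 4) ∨
        s52m_FixesX (s52fa_A t a) (s52fa_B t b) (σ ^ 5)) :
    s52fa_RamLoc (K := K) t a b := by
  have h30 : ∀ A : ValuationSubring (s52fa_Om F),
      (∀ n : ℕ, n ≠ 0 → A.valuation ((n : ℕ) : s52fa_Om F) = 1) →
      A.valuation (30 : s52fa_Om F) = 1 := by
    intro A h
    have := h 30 (by norm_num)
    exact_mod_cast this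
  refine ⟨?_, ?_, ?_, ?_⟩
  · intro A σ hn hσ hJ hJ1
    rw [s52fa_JOm_eq_m] at hJ hJ1
    exact hgood A (h30 A hn) σ hσ hJ hJ1
  · intro A σ hn hσ hJ
    rw [s52fa_JOm_eq_m] at hJ
    exact hj0 A (h30 A hn) σ hσ hJ
  · intro A σ hn hσ hJ
    rw [s52fa_JOm_eq_m] at hJ
    exact hj1728 A (h30 A hn) σ hσ hJ
  · intro A σ hn hσ hJ
    rw [s52fa_JOm_eq_m] at hJ
    exact hnode A (h30 A hn) σ hσ hJ

/-- the bridge in the shape of part 1, from helper13's `s52rb_main_of` and the extension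
theorem of [VALEXT] (kept as a hypothesis). -/
theorem s52fa_bridge_of [IsAlgClosed K] [CharZero K] (ht : Transcendental K t)
    [FiniteDimensional K⟮t⟯ F]
    (hV : ∀ (v : Place K F) (σ : F ≃ₐ[↥K⟮t⟯] F),
      σ • v.toValuationSubring = v.toValuationSubring →
      ∃ (A : ValuationSubring (s52fa_Om F)) (σ' : s52fa_Om F ≃ₐ[↥K⟮t⟯] s52fa_Om F),
        A.comap (algebraMap F (s52fa_Om F)) = v.toValuationSubring ∧
        (∀ f : F, σ' (algebraMap F (s52fa_Om F) f) = algebraMap F (s52fa_Om F) (σ f)) ∧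
        σ' • A = A) :
    s52fa_Bridge (K := K) t := by
  intro v σ hσ
  exact s52rb_main_of t ht v σ (hV v σ (s52rb_stab_of_maps t v σ hσ))

end Fermat.Agent.S52
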