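/-
S52, node [F-ASM], cell (FA3) (helper17).  Prefix `s52fp_`.

The CONCRETE adapter between helper14's vocabulary (`s52e_E a b`, `s52e_R a b ⊂ Ω = ℚ̄((u))`,
TORS/Closed.lean) and helper2's abstract assembly (`s52fa_E`, `s52fa_psi`, `s52fa_genus_zero`,
FASM/Genus.lean): for ANY intermediate field `ℚ̄ ⊆ Fb ⊆ Ω` containing `t = 1 + u`, with
`x := ⟨t, _⟩ : Fb`, `a' := algebraMap ℚ ℚ̄ a`, `b'` likewise:

* `s52fp_E_map`    : `𝓔_t` of helper2 (over `ℚ̄(x)`), pushed to `Ω`, is helper14's pencil `s52e_E a b`;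
* `s52fp_psi_map`  : `(s52fa_psi x a' b').map (Fb → Ω) = ψ₅(s52e_E a b)`;
* `s52fp_psi_root` : every element of `Fb` lying in `s52e_R a b` is a root of `s52fa_psi x a' b'`
  (= the hypothesis `hR` of `s52fa_genus_zero` for `R := s52fp_R a b Fb`);
* `s52fp_genus0`   : for `Fb := s52b_F t (s52e_R a b)` (helper23), genus `0` from the bridge and
  the local analysis.
-/
import Mathlib
import Fermat.Agent.S52.FASM.Genus
import Fermat.Agent.S52.TORS.Closed
import Fermat.Agent.S52.FBAR.Concrete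
import Fermat.Agent.S52.LAU.Twist

set_option autoImplicit false

namespace Fermat.Agent.S52

open Polynomial IntermediateField WeierstrassCurve WeierstrassCurve.Affine Fermat.Agent.S13
open AlgebraicCurve

noncomputable section

variable (a b : ℚ) (Fb : IntermediateField s52_Qb s52l_Om) (ht : s52e_t ∈ Fb)

theorem s52fp_A_val :
    algebraMap ↥Fb s52l_Om (algebraMap ↥(s52_Qb⟮(⟨s52e_t, ht⟩ : ↥Fb)⟯) ↥Fb
      (s52fa_A (⟨s52e_t, ht⟩ : ↥Fb) (algebraMap ℚ s52_Qb a))) =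
      -27 * algebraMap s52_Qb s52l_Om (algebraMap ℚ s52_Qb a) * s52e_t := by
  rw [IntermediateField.algebraMap_apply, IntermediateField.algebraMap_apply, s52fa_coe_A]
  push_cast
  have h27 : ((27 : ↥Fb) : s52l_Om) = 27 := rfl
  rw [h27]

theorem s52fp_B_val :
    algebraMap ↥Fb s52l_Om (algebraMap ↥(s52_Qb⟮(⟨s52e_t, ht⟩ : ↥Fb)⟯) ↥Fb
      (s52fa_B (⟨s52e_t, ht⟩ : ↥Fb) (algebraMap ℚ s52_Qb b))) =
      -54 * algebraMap s52_Qb s52l_Om (algebraMap ℚ s52_Qb b) * s52e_t := by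
  rw [IntermediateField.algebraMap_apply, IntermediateField.algebraMap_apply, s52fa_coe_B]
  push_cast
  have h54 : ((54 : ↥Fb) : s52l_Om) = 54 := rfl
  rw [h54]

/-- helper14's pencil as a short curve over `Ω`. -/
theorem s52fp_E_eq :
    s52e_E a b = s52n_short (-27 * algebraMap s52_Qb s52l_Om (algebraMap ℚ s52_Qb a) * s52e_t)
      (-54 * algebraMap s52_Qb s52l_Om (algebraMap ℚ s52_Qb b) * s52e_t) := by
  ext <;>
    simp [s52n_short, s52e_E, s52e_EA, WeierstrassCurve.map, map_ofNat, s52e_t, s52l_u]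

/-- helper2's `𝓔_t` over `ℚ̄(x)`, pushed to `Ω`, is helper14's pencil. -/
theorem s52fp_E_map :
    ((s52fa_E (⟨s52e_t, ht⟩ : ↥Fb) (algebraMap ℚ s52_Qb a) (algebraMap ℚ s52_Qb b)).map
      (algebraMap ↥(s52_Qb⟮(⟨s52e_t, ht⟩ : ↥Fb)⟯) ↥Fb)).map (algebraMap ↥Fb s52l_Om) =
      s52e_E a b := by
  rw [s52fa_E, s52n_short_map, s52n_short_map, s52fp_A_val, s52fp_B_val, s52fp_E_eq]

/-- helper2's `ψ₅` over `Fb`, pushed to `Ω`, is the `ψ₅` of helper14's pencil. -/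
theorem s52fp_psi_map :
    (s52fa_psi (⟨s52e_t, ht⟩ : ↥Fb) (algebraMap ℚ s52_Qb a) (algebraMap ℚ s52_Qb b)).map
      (algebraMap ↥Fb s52l_Om) = ldC (ldPoly (s52e_E a b)) 2 := by
  rw [s52fa_psi, ldC_ldPoly_map, s52fp_E_map]

/-- the roots `s52e_R a b` inside `Fb`. -/
def s52fp_R : Set ↥Fb := {z | (z : s52l_Om) ∈ s52e_R a b}

/-- **(FA3), concrete**: the elements of `Fb` lying in `s52e_R a b` are roots of helper2's
`s52fa_psi` (hypothesis `hR` of `s52fa_genus_zero`). -/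
theorem s52fp_psi_root (z : ↥Fb) (hz : z ∈ s52fp_R a b Fb) :
    (s52fa_psi (⟨s52e_t, ht⟩ : ↥Fb) (algebraMap ℚ s52_Qb a) (algebraMap ℚ s52_Qb b)).eval z = 0 := by
  have h1 : (ldC (ldPoly (s52e_E a b)) 2).eval (z : s52l_Om) = 0 := (s52e_mem_R a b _).1 hz
  rw [← s52fp_psi_map a b Fb ht] at h1
  have h2 : ((z : ↥Fb) : s52l_Om) = algebraMap ↥Fb s52l_Om z := rfl
  rw [h2, Polynomial.eval_map_algebraMap, Polynomial.aeval_algebraMap_apply,
    Polynomial.coe_aeval_eq_eval] at h1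
  exact (algebraMap ↥Fb s52l_Om).injective (h1.trans (map_zero _).symm)

/-! ### the concrete field `Fb = ℚ̄(t, R)` of helper23 -/

theorem s52fp_u_order : s52l_u.order = 1 := HahnSeries.order_single one_ne_zero

/-- `t = 1 + u` is transcendental over `ℚ̄`. -/
theorem s52fp_t_transcendental : Transcendental s52_Qb s52e_t := by
  intro h
  apply s52l_transcendental s52fp_u_order
  have hu : s52l_u = s52e_t - 1 := by rw [s52e_t]; ring
  rw [hu]
  exact h.sub isAlgebraic_one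

theorem s52fp_lc_ne_zero : (-5 : s52l_Om) ≠ 0 := by
  have h : (-5 : s52l_Om) = algebraMap s52_Qb s52l_Om (-5) := by
    rw [map_neg, map_ofNat]
  rw [h, Ne, map_eq_zero]
  norm_num

/-- **genus `0` of the concrete `x`-division field** `ℚ̄(t, R)`, `R = s52e_R a b`, from the bridge
and the local analysis (helper2's `s52fa_genus_zero` instantiated through helper23's `s52b_F`). -/
theorem s52fp_genus0 (ha : a ≠ 0) (hb : b ≠ 0) (hΔ : a ^ 3 - b ^ 2 ≠ 0)
    [HasCanonicalDivisor (K := s52_Qb) (F := ↥(s52b_F (K := s52_Qb) s52e_t (s52e_R a b)))]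
    (hB : s52fa_Bridge (K := s52_Qb) (s52b_x (K := s52_Qb) s52e_t (s52e_R a b)))
    (hL : s52fa_RamLoc (K := s52_Qb) (s52b_x (K := s52_Qb) s52e_t (s52e_R a b))
      (algebraMap ℚ s52_Qb a) (algebraMap ℚ s52_Qb b)) :
    genus s52_Qb ↥(s52b_F (K := s52_Qb) s52e_t (s52e_R a b)) = 0 := by
  have hfd := s52b_F_finiteDimensional (K := s52_Qb) s52fp_lc_ne_zero (s52e_psiP_factor a b hΔ)
  have hgal := s52b_F_isGalois (K := s52_Qb) s52fp_lc_ne_zero (s52e_psiP_factor a b hΔ)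
  have ha' : algebraMap ℚ s52_Qb a ≠ 0 := by rw [Ne, map_eq_zero]; exact ha
  have hb' : algebraMap ℚ s52_Qb b ≠ 0 := by rw [Ne, map_eq_zero]; exact hb
  exact s52fa_genus_zero (s52b_x (K := s52_Qb) s52e_t (s52e_R a b))
    (s52b_transcendental s52fp_t_transcendental _) (algebraMap ℚ s52_Qb a)
    (algebraMap ℚ s52_Qb b) ha' hb' hB hL
    (s52fp_R a b (s52b_F (K := s52_Qb) s52e_t (s52e_R a b)))
    (fun r hr => s52fp_psi_root a b _ (s52b_t_mem s52e_t (s52e_R a b)) r hr)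
    (fun σ hσ => s52b_F_faithful _ _ σ hσ)

end

end Fermat.Agent.S52
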